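import Mathlib
import Fermat.Prelude.Thm_Algebra_finite_maximalSpectrum_and_bijective_localization_of_module_finite
import Fermat.Prelude.Thm_IsLocalRing_isAdicComplete_of_module_finite

/-!
# S55, layer L, piece LF0 : the ring of integers of a local field (helper284)

`A` a complete discrete valuation ring, `F = Frac A`, `L / F` a finite separable extension,
`B := integralClosure A L`.  Then `B` is a complete discrete valuation ring, finite and free
over `A` of rank `[L : F]`, with fraction field `L`, and its residue field is finite if the residue
field of `A` is.

The statements are "neutral": they only use Mathlib vocabulary, for an arbitrary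
`[Algebra A L] [IsScalarTower A F L]`, so that they can be used both with
`(Fermat.Agent.S55.Local.toL A F L).toAlgebra` and with any other packaging of local fields.
-/

set_option autoImplicit false
set_option linter.unusedSectionVars false

namespace Fermat.Agent.S55.Local.H284

/-- A domain which is finite over a complete noetherian local ring is local. -/
theorem isLocalRing_of_finite_of_isDomain (𝒪 : Type) [CommRing 𝒪] [IsLocalRing 𝒪]
    [IsNoetherianRing 𝒪] [IsAdicComplete (IsLocalRing.maximalIdeal 𝒪) 𝒪]
    (B : Type) [CommRing B] [IsDomain B] [Algebra 𝒪 B] [Module.Finite 𝒪 B] : IsLocalRing B := by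
  classical
  obtain ⟨-, hbij, -, -⟩ :=
    Algebra.finite_maximalSpectrum_and_bijective_localization_of_module_finite (𝒪 := 𝒪) B
  obtain ⟨I, hI⟩ := Ideal.exists_maximal B
  refine IsLocalRing.of_unique_max_ideal ⟨I, hI, fun J hJ => ?_⟩
  by_contra hne
  let I' : MaximalSpectrum B := ⟨I, hI⟩
  let J' : MaximalSpectrum B := ⟨J, hJ⟩
  have hIJ : J' ≠ I' := fun h => hne (congrArg MaximalSpectrum.asIdeal h)
  set φ := RingHom.pi fun K : MaximalSpectrum B => algebraMap B (Localization.AtPrime K.asIdeal)
    with hφ
  obtain ⟨b, hb⟩ := hbij.2 (Pi.single I' 1)
  obtain ⟨b', hb'⟩ := hbij.2 (Pi.single J' 1)
  have hmul : φ (b * b') = 0 := by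
    rw [map_mul, hb, hb']
    funext K
    by_cases hK : K = I'
    · subst hK
      simp [Pi.single_eq_of_ne hIJ.symm]
    · simp [Pi.single_eq_of_ne hK]
  have h0 : b * b' = 0 := hbij.1 (by rw [hmul, map_zero])
  rcases mul_eq_zero.mp h0 with h | h
  · have := congrFun hb I'
    rw [h, map_zero] at this
    simp at this
  · have := congrFun hb' J'
    rw [h, map_zero] at this
    simp at this

section IntegralClosure

variable (A F L : Type) [CommRing A] [IsDomain A] [IsDiscreteValuationRing A]
  [IsAdicComplete (IsLocalRing.maximalIdeal A) A]
  [Field F] [Algebra A F] [IsFractionRing A F]
  [Field L] [Algebra F L] [FiniteDimensional F L] [Algebra.IsSeparable F L]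
  [Algebra A L] [IsScalarTower A F L]

include F in
/-- `B` is a finite `A`-module. -/
theorem finite_integralClosure : Module.Finite A (integralClosure A L) :=
  IsIntegralClosure.finite A F L (integralClosure A L)

include F in
/-- `B` is a Dedekind domain. -/
theorem isDedekindDomain_integralClosure : IsDedekindDomain (integralClosure A L) :=
  integralClosure.isDedekindDomain A F L

include F in
/-- `B` is a local ring. -/
theorem isLocalRing_integralClosure : IsLocalRing (integralClosure A L) := by
  have := finite_integralClosure A F L
  exact isLocalRing_of_finite_of_isDomain A (integralClosure A L)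

include F in
/-- `A → L` is injective. -/
theorem algebraMap_injective_of_tower : Function.Injective (algebraMap A L) := by
  rw [IsScalarTower.algebraMap_eq A F L]
  exact (algebraMap F L).injective.comp (IsFractionRing.injective A F)

include F in
/-- `A → B` is injective. -/
theorem algebraMap_integralClosure_injective :
    Function.Injective (algebraMap A (integralClosure A L)) := by
  intro a b h
  apply algebraMap_injective_of_tower A F L
  have := congrArg (algebraMap (integralClosure A L) L) h
  simpa [← IsScalarTower.algebraMap_apply] using this

include F in
/-- `B` is not a field. -/
theorem not_isField_integralClosure : ¬ IsField (integralClosure A L) := fun h =>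
  IsDiscreteValuationRing.not_isField A
    (isField_of_isIntegral_of_isField (algebraMap_integralClosure_injective A F L) h)

include F in
/-- `B` is a discrete valuation ring. -/
theorem isDiscreteValuationRing_integralClosure :
    IsDiscreteValuationRing (integralClosure A L) := by
  have hD := isDedekindDomain_integralClosure A F L
  have hL := isLocalRing_integralClosure A F L
  exact ((IsDiscreteValuationRing.TFAE (integralClosure A L)
    (not_isField_integralClosure A F L)).out 2 0).mp hD

include F in
/-- `A → B` is a local homomorphism. -/
theorem isLocalHom_algebraMap_integralClosure :
    IsLocalHom (algebraMap A (integralClosure A L)) :=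
  RingHom.IsIntegral.isLocalHom (algebraMap_isIntegral_iff.mpr inferInstance)
    (algebraMap_integralClosure_injective A F L)

include F in
/-- `B` is complete for its maximal ideal. -/
theorem isAdicComplete_integralClosure :
    haveI := isLocalRing_integralClosure A F L
    IsAdicComplete (IsLocalRing.maximalIdeal (integralClosure A L)) (integralClosure A L) := by
  have := isLocalRing_integralClosure A F L
  have := finite_integralClosure A F L
  have := isLocalHom_algebraMap_integralClosure A F L
  exact IsLocalRing.isAdicComplete_of_module_finite (𝒪 := A)

include F in
/-- The residue field of `B` is finite if the residue field of `A` is. -/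
theorem finite_residueField_integralClosure [Finite (IsLocalRing.ResidueField A)] :
    haveI := isLocalRing_integralClosure A F L
    Finite (IsLocalRing.ResidueField (integralClosure A L)) := by
  have := isLocalRing_integralClosure A F L
  have := finite_integralClosure A F L
  have := isLocalHom_algebraMap_integralClosure A F L
  exact IsLocalRing.ResidueField.finite_of_finite (R := A) inferInstance

include F in
/-- `B` is a free `A`-module. -/
theorem free_integralClosure : Module.Free A (integralClosure A L) := by
  have : Module.IsTorsionFree A L :=
    Module.isTorsionFree_iff_algebraMap_injective.mpr (algebraMap_injective_of_tower A F L)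
  exact IsIntegralClosure.module_free A F L (integralClosure A L)

include F in
/-- `rank_A B = [L : F]`. -/
theorem finrank_integralClosure :
    Module.finrank A (integralClosure A L) = Module.finrank F L := by
  have : Module.IsTorsionFree A L :=
    Module.isTorsionFree_iff_algebraMap_injective.mpr (algebraMap_injective_of_tower A F L)
  exact IsIntegralClosure.rank A F L (integralClosure A L)

include F in
/-- `L = Frac B`. -/
theorem isFractionRing_integralClosure : IsFractionRing (integralClosure A L) L :=
  integralClosure.isFractionRing_of_finite_extension F L

include F in
/-- **Valuation ring property**: every `x : L` is integral over `A`, or its inverse is. -/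
theorem isIntegral_or_isIntegral_inv (x : L) : IsIntegral A x ∨ IsIntegral A x⁻¹ := by
  have := isDiscreteValuationRing_integralClosure A F L
  have := isFractionRing_integralClosure A F L
  rcases ValuationRing.isInteger_or_isInteger (integralClosure A L) x with ⟨b, hb⟩ | ⟨b, hb⟩
  · left
    rw [← hb]
    exact b.2
  · right
    rw [← hb]
    exact b.2

end IntegralClosure

end Fermat.Agent.S55.Local.H284
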